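/-
Programme T1B (row 38 / S33), E-side, brick E44-R part (R2) (helper88): **the abstract resolvent over
a valued field.**

`K` a field, `v : Valuation K Γ₀`, `p` a prime, `ζ : K` with `ζ ^ p = 1`, `F : ZMod p → K`,
`R := ∑ k, ζ ^ ((p - k.val) % p) * F k` (the resolvent `∑ ζ^(-k) F k`).
* `val_pow_eq_one` : `v (ζ ^ m) = 1`;
* `val_resolvent` : if `v (F k - A * ζ ^ k.val) < v A * v p` for all `k`, then `v R = v A * v p`;
* `resolvent_equivariant` : if `σ ζ = ζ ^ χ.val` and `σ (F k) = F (c + χ * k)` with `χ ≠ 0`, then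
  `σ R = ζ ^ c.val * R`.
-/
import Mathlib

set_option autoImplicit false

namespace Fermat.Agent.T1B.ESide88

open Finset

variable {K : Type*} [Field K] {p : ℕ} [Fact p.Prime] {ζ : K}

/-! ### Powers of a `p`-th root of unity indexed by `ZMod p` -/

omit [Fact p.Prime] in
theorem pow_eq_of_mod_eq (hζ : ζ ^ p = 1) {a b : ℕ} (h : a % p = b % p) : ζ ^ a = ζ ^ b := by
  rw [pow_eq_pow_mod a hζ, pow_eq_pow_mod b hζ, h]

theorem pow_val_add (hζ : ζ ^ p = 1) (a b : ZMod p) :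
    ζ ^ (a + b).val = ζ ^ a.val * ζ ^ b.val := by
  rw [← pow_add, ZMod.val_add]
  exact pow_eq_of_mod_eq hζ (Nat.mod_mod _ _)

theorem pow_val_mul (hζ : ζ ^ p = 1) (a b : ZMod p) :
    ζ ^ (a * b).val = (ζ ^ a.val) ^ b.val := by
  rw [← pow_mul, ZMod.val_mul]
  exact pow_eq_of_mod_eq hζ (Nat.mod_mod _ _)

theorem pow_neg_val (k : ZMod p) : ζ ^ ((p - k.val) % p) = ζ ^ (-k).val := by
  rw [ZMod.neg_val']

theorem pow_neg_val_mul_pow_val (hζ : ζ ^ p = 1) (k : ZMod p) :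
    ζ ^ ((p - k.val) % p) * ζ ^ k.val = 1 := by
  rw [pow_neg_val, ← pow_val_add hζ, neg_add_cancel, ZMod.val_zero, pow_zero]

/-! ### The valuation of the resolvent -/

section Valuation

variable {Γ₀ : Type*} [LinearOrderedCommGroupWithZero Γ₀] (v : Valuation K Γ₀)

theorem val_eq_one_of_pow_eq_one (hζ : ζ ^ p = 1) : v ζ = 1 := by
  have h : v ζ ^ p = 1 := by rw [← map_pow, hζ, map_one]
  exact (pow_eq_one_iff_of_nonneg zero_le (Fact.out : p.Prime).ne_zero).1 h

theorem val_pow_eq_one (hζ : ζ ^ p = 1) (m : ℕ) : v (ζ ^ m) = 1 := by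
  rw [map_pow, val_eq_one_of_pow_eq_one v hζ, one_pow]

/-- **The valuation of the resolvent.** -/
theorem val_resolvent (hζ : ζ ^ p = 1) (F : ZMod p → K) (A : K)
    (h : ∀ k : ZMod p, v (F k - A * ζ ^ k.val) < v A * v (p : K)) :
    v (∑ k : ZMod p, ζ ^ ((p - k.val) % p) * F k) = v A * v (p : K) := by
  have hsplit : ∑ k : ZMod p, ζ ^ ((p - k.val) % p) * F k =
      ∑ k : ZMod p, ζ ^ ((p - k.val) % p) * (F k - A * ζ ^ k.val) + (p : K) * A := by
    rw [← sub_eq_iff_eq_add', ← Finset.sum_sub_distrib]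
    have h1 : ∀ k : ZMod p, ζ ^ ((p - k.val) % p) * F k -
        ζ ^ ((p - k.val) % p) * (F k - A * ζ ^ k.val) = A := by
      intro k
      have h2 := pow_neg_val_mul_pow_val hζ k
      calc ζ ^ ((p - k.val) % p) * F k - ζ ^ ((p - k.val) % p) * (F k - A * ζ ^ k.val)
          = A * (ζ ^ ((p - k.val) % p) * ζ ^ k.val) := by ring
        _ = A := by rw [h2, mul_one]
    rw [Finset.sum_congr rfl (fun k _ => h1 k), Finset.sum_const, Finset.card_univ, ZMod.card,
      nsmul_eq_mul]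
  have hne : v A * v (p : K) ≠ 0 := fun h0 => by
    have := h 0
    rw [h0] at this
    exact not_lt_zero this
  have hlt : v (∑ k : ZMod p, ζ ^ ((p - k.val) % p) * (F k - A * ζ ^ k.val)) <
      v ((p : K) * A) := by
    rw [map_mul, mul_comm (v (p : K))]
    apply Valuation.map_sum_lt v hne
    intro k _
    rw [map_mul, val_pow_eq_one v hζ, one_mul]
    exact h k
  rw [hsplit, Valuation.map_add_eq_of_lt_right v hlt, map_mul, mul_comm]

end Valuation

/-! ### Equivariance of the resolvent -/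

/-- **Equivariance of the resolvent.** -/
theorem resolvent_equivariant (hζ : ζ ^ p = 1) (F : ZMod p → K) (σ : K →+* K) (χ c : ZMod p)
    (hχ : χ ≠ 0) (hσζ : σ ζ = ζ ^ χ.val) (hσF : ∀ k, σ (F k) = F (c + χ * k)) :
    σ (∑ k : ZMod p, ζ ^ ((p - k.val) % p) * F k) =
      ζ ^ c.val * ∑ k : ZMod p, ζ ^ ((p - k.val) % p) * F k := by
  let e : ZMod p ≃ ZMod p := (Equiv.mulLeft₀ χ hχ).trans (Equiv.addLeft c)
  have he : ∀ k, e k = c + χ * k := fun k => rfl
  rw [map_sum, Finset.mul_sum]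
  refine Eq.trans ?_ (Equiv.sum_comp e fun j => ζ ^ c.val * (ζ ^ ((p - j.val) % p) * F j))
  refine Finset.sum_congr rfl fun k _ => ?_
  rw [map_mul, map_pow, hσζ, hσF, he, ← mul_assoc]
  congr 1
  rw [pow_neg_val, pow_neg_val, ← pow_val_mul hζ, ← pow_val_add hζ]
  congr 2
  ring

end Fermat.Agent.T1B.ESide88
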