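/-
Programme T1B (row 38 / S33), E-side, brick E44-R parts (R1), (R1') (helper88; twin of helper9's
`ESide9/Roots.lean`): **`p`-th roots of unity in a valued field.**

`K` a field, `v : Valuation K Γ₀`, `p` a prime.
* `val_sub_pow_eq` (R1') : two distinct `p`-th roots of unity `ζ, ζ'` satisfy
  `v (ζ - ζ') ^ (p - 1) = v p`;
* `val_sub_eq_val_sub` : all the differences of distinct `p`-th roots of unity have the same
  valuation;
* `exists_closest_root` (R1) : for `ζ₀` a primitive `p`-th root of unity and every `t : K` there is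
  `k < p` with `v (t - ζ₀ ^ k) * v p ≤ v (t ^ p - 1)`.
-/
import Fermat.Agent.T1B.ESide88.Resolvent

set_option autoImplicit false

namespace Fermat.Agent.T1B.ESide88

open Finset

variable {K : Type*} [Field K] {p : ℕ} [Fact p.Prime] {Γ₀ : Type*}
  [LinearOrderedCommGroupWithZero Γ₀] (v : Valuation K Γ₀)

/-- A `p`-th root of unity different from `1` is primitive. -/
theorem isPrimitiveRoot_of_ne_one {η : K} (hη : η ^ p = 1) (h1 : η ≠ 1) : IsPrimitiveRoot η p := by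
  rw [IsPrimitiveRoot.iff_orderOf]
  exact orderOf_eq_prime hη h1

/-- The valuation of a sum of powers of a root of unity is at most one. -/
theorem val_geom_sum_le_one {η : K} (hη : η ^ p = 1) (k : ℕ) :
    v (∑ i ∈ range k, η ^ i) ≤ 1 := by
  apply Valuation.map_sum_le
  intro i _
  rw [val_pow_eq_one v hη]

theorem val_one_sub_pow_le {η : K} (hη : η ^ p = 1) (k : ℕ) : v (1 - η ^ k) ≤ v (1 - η) := by
  have h : 1 - η ^ k = (∑ i ∈ range k, η ^ i) * (1 - η) := (geom_sum_mul_neg η k).symm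
  rw [h, map_mul]
  calc v (∑ i ∈ range k, η ^ i) * v (1 - η) ≤ 1 * v (1 - η) :=
        mul_le_mul_left (val_geom_sum_le_one v hη k) _
    _ = v (1 - η) := one_mul _

/-- For a primitive `p`-th root of unity `η`, all the `1 - η ^ k` (`p ∤ k`) have the same
valuation. -/
theorem val_one_sub_pow_eq {η : K} (hη : IsPrimitiveRoot η p) {k : ℕ} (hk : ¬ p ∣ k) :
    v (1 - η ^ k) = v (1 - η) := by
  have hp : p.Prime := Fact.out
  have h1 : η ^ p = 1 := hη.pow_eq_one
  apply le_antisymm (val_one_sub_pow_le v h1 k)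
  -- `η` is a power of `η ^ k`
  have hcop : Nat.Coprime k p := ((Nat.Prime.coprime_iff_not_dvd hp).2 hk).symm
  obtain ⟨m, -, hm⟩ := Nat.exists_mul_mod_eq_one_of_coprime hcop hp.one_lt
  have h2 : (η ^ k) ^ m = η := by
    rw [← pow_mul, pow_eq_pow_mod (k * m) h1, hm, pow_one]
  have h3 : (η ^ k) ^ p = 1 := by rw [← pow_mul, mul_comm, pow_mul, h1, one_pow]
  calc v (1 - η) = v (1 - (η ^ k) ^ m) := by rw [h2]
    _ ≤ v (1 - η ^ k) := val_one_sub_pow_le v h3 m

/-- For a primitive `p`-th root of unity `η`: `v (1 - η) ^ (p - 1) = v p`. -/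
theorem val_one_sub_pow_card {η : K} (hη : IsPrimitiveRoot η p) :
    v (1 - η) ^ (p - 1) = v (p : K) := by
  have hp : p.Prime := Fact.out
  obtain ⟨n, hn⟩ : ∃ n, p = n + 1 := ⟨p - 1, (Nat.succ_pred_eq_of_pos hp.pos).symm⟩
  have hη' : IsPrimitiveRoot η (n + 1) := hn ▸ hη
  have h1 := hη'.prod_one_sub_pow_eq_order
  have h2 : v (∏ k ∈ range n, (1 - η ^ (k + 1))) = v (1 - η) ^ n := by
    rw [map_prod]
    have : ∀ k ∈ range n, v (1 - η ^ (k + 1)) = v (1 - η) := by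
      intro k hk
      apply val_one_sub_pow_eq v hη
      intro hdvd
      have hlt : k + 1 < p := by
        rw [hn]
        exact Nat.succ_lt_succ (Finset.mem_range.1 hk)
      exact absurd (Nat.le_of_dvd (Nat.succ_pos k) hdvd) (not_le.2 hlt)
    rw [Finset.prod_congr rfl this, Finset.prod_const, Finset.card_range]
  rw [h1] at h2
  have h3 : p - 1 = n := by omega
  rw [h3, ← h2, hn]
  push_cast
  rfl

/-- **(R1')** Two distinct `p`-th roots of unity satisfy `v (ζ - ζ') ^ (p - 1) = v p`. -/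
theorem val_sub_pow_eq {ζ ζ' : K} (hζ : ζ ^ p = 1) (hζ' : ζ' ^ p = 1) (hne : ζ ≠ ζ') :
    v (ζ - ζ') ^ (p - 1) = v (p : K) := by
  have hp : p.Prime := Fact.out
  have hζ0 : ζ ≠ 0 := fun h => by
    rw [h, zero_pow hp.ne_zero] at hζ
    exact zero_ne_one hζ
  have hη : (ζ' / ζ) ^ p = 1 := by rw [div_pow, hζ, hζ', div_one]
  have hη1 : ζ' / ζ ≠ 1 := fun h => hne ((div_eq_one_iff_eq hζ0).1 h).symm
  have hprim := isPrimitiveRoot_of_ne_one hη hη1
  have h1 : ζ - ζ' = ζ * (1 - ζ' / ζ) := by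
    field_simp
  rw [h1, map_mul, val_eq_one_of_pow_eq_one v hζ, one_mul]
  exact val_one_sub_pow_card v hprim

/-- All the differences of distinct `p`-th roots of unity have the same valuation. -/
theorem val_sub_eq_val_sub {ζ ζ' ξ ξ' : K} (hζ : ζ ^ p = 1) (hζ' : ζ' ^ p = 1) (hne : ζ ≠ ζ')
    (hξ : ξ ^ p = 1) (hξ' : ξ' ^ p = 1) (hne' : ξ ≠ ξ') : v (ζ - ζ') = v (ξ - ξ') := by
  have hp : p.Prime := Fact.out
  have h := (val_sub_pow_eq v hζ hζ' hne).trans (val_sub_pow_eq v hξ hξ' hne').symm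
  have hn : p - 1 ≠ 0 := Nat.sub_ne_zero_of_lt hp.one_lt
  exact (pow_left_inj₀ zero_le zero_le hn).1 h

/-! ### The closest root of unity -/

omit [Fact p.Prime] in
theorem pow_sub_one_eq_prod (hp : 0 < p) {ζ₀ : K} (h₀ : IsPrimitiveRoot ζ₀ p) (t : K) :
    t ^ p - 1 = ∏ i ∈ range p, (t - ζ₀ ^ i) := by
  have h := X_pow_sub_C_eq_prod h₀ hp (one_pow p)
  have h2 := congrArg (Polynomial.eval t) h
  simpa [Polynomial.eval_prod] using h2

/-- **(R1) The closest root of unity**: for every `t` there is a `p`-th root of unity `ζ₀ ^ k` with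
`v (t - ζ₀ ^ k) * v p ≤ v (t ^ p - 1)`. -/
theorem exists_closest_root {ζ₀ : K} (h₀ : IsPrimitiveRoot ζ₀ p) (t : K) :
    ∃ k : ℕ, k < p ∧ v (t - ζ₀ ^ k) * v (p : K) ≤ v (t ^ p - 1) := by
  have hp : p.Prime := Fact.out
  have hζ : ζ₀ ^ p = 1 := h₀.pow_eq_one
  have hne : (range p).Nonempty := ⟨0, mem_range.2 hp.pos⟩
  obtain ⟨k₀, hk₀, hmin⟩ := Finset.exists_min_image (range p) (fun k => v (t - ζ₀ ^ k)) hne
  refine ⟨k₀, mem_range.1 hk₀, ?_⟩
  rw [pow_sub_one_eq_prod hp.pos h₀ t, map_prod, ← Finset.mul_prod_erase (range p) _ hk₀]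
  apply mul_le_mul_right
  -- each remaining factor is at least `d = v (1 - ζ₀)`
  have h1ne : (1 : K) ≠ ζ₀ := (h₀.ne_one hp.one_lt).symm
  have hd : ∀ k ∈ (range p).erase k₀, v (1 - ζ₀) ≤ v (t - ζ₀ ^ k) := by
    intro k hk
    have hkne : k ≠ k₀ := (Finset.mem_erase.1 hk).1
    have hkp : k < p := mem_range.1 (Finset.mem_erase.1 hk).2
    have hroots : ζ₀ ^ k₀ ≠ ζ₀ ^ k := fun h =>
      hkne (h₀.pow_inj (mem_range.1 hk₀) hkp h).symm
    have h1 : v (1 - ζ₀) = v (ζ₀ ^ k₀ - ζ₀ ^ k) :=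
      val_sub_eq_val_sub v (one_pow p) hζ h1ne
        (by rw [← pow_mul, mul_comm, pow_mul, hζ, one_pow])
        (by rw [← pow_mul, mul_comm, pow_mul, hζ, one_pow]) hroots
    have h2 : ζ₀ ^ k₀ - ζ₀ ^ k = (t - ζ₀ ^ k) - (t - ζ₀ ^ k₀) := by ring
    rw [h1, h2]
    refine (Valuation.map_sub v _ _).trans ?_
    exact max_le le_rfl (hmin k (Finset.mem_erase.1 hk).2)
  calc v (p : K) = v (1 - ζ₀) ^ (p - 1) := (val_one_sub_pow_card v h₀).symm
    _ = ∏ _k ∈ (range p).erase k₀, v (1 - ζ₀) := by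
        rw [Finset.prod_const, Finset.card_erase_of_mem hk₀, Finset.card_range]
    _ ≤ ∏ k ∈ (range p).erase k₀, v (t - ζ₀ ^ k) := Finset.prod_le_prod' hd

end Fermat.Agent.T1B.ESide88
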